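import Fermat.Agent.KField.Basic

/-!
# A ramified extension of degree `p` of the fixed field of inertia
-/

set_option autoImplicit false

namespace Fermat.Agent.KField

-- use the algebra structures coming from `Ω`
attribute [-instance] DivisionRing.toRatAlgebra

variable {Ω : Type*} [Field Ω] [Algebra ℚ Ω] [IsGalois ℚ Ω] {A : ValuationSubring Ω} {p : ℕ}

/-- elements fixed by a subgroup of index `d` of inertia: `v(θ)^d` is a power of `v(p)`. -/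
theorem val_pow_index (hp : p.Prime) (hA : A.LiesOverPrime p) (J : Subgroup (Ω ≃ₐ[ℚ] Ω))
    (hJ : J.relIndex (A.inertiaSubgroupIn ℚ) ≠ 0) {θ : Ω} (hθ : θ ≠ 0)
    (hfix : ∀ s ∈ J, s θ = θ) :
    ∃ n : ℤ, A.valuation θ ^ (J.relIndex (A.inertiaSubgroupIn ℚ)) =
      A.valuation (p : Ω) ^ n := by
  set I := A.inertiaSubgroupIn ℚ with hI
  set J' := J.subgroupOf I with hJ'
  have hfi : J'.FiniteIndex := ⟨hJ⟩
  have hfin : Finite (I ⧸ J') := inferInstance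
  let _ : Fintype (I ⧸ J') := Fintype.ofFinite _
  let N : Ω := ∏ c : I ⧸ J', ((c.out : I) : Ω ≃ₐ[ℚ] Ω) θ
  have hN0 : N ≠ 0 := Finset.prod_ne_zero_iff.2 fun c _ => (map_ne_zero _).2 hθ
  have hNfix : ∀ s ∈ I, s N = N := by
    intro s hs
    show s (∏ c : I ⧸ J', ((c.out : I) : Ω ≃ₐ[ℚ] Ω) θ) = _
    rw [map_prod]
    have h1 : ∀ c : I ⧸ J', s (((c.out : I) : Ω ≃ₐ[ℚ] Ω) θ) =
        ((((⟨s, hs⟩ : I) • c).out : I) : Ω ≃ₐ[ℚ] Ω) θ := by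
      intro c
      have h2 : (((⟨s, hs⟩ : I) • c).out)⁻¹ * (⟨s, hs⟩ * c.out) ∈ J' := by
        rw [← QuotientGroup.eq, QuotientGroup.out_eq']
        conv_lhs => rw [← QuotientGroup.out_eq' c]
        rfl
      have h3 : ((((⟨s, hs⟩ : I) • c).out : I) : Ω ≃ₐ[ℚ] Ω)⁻¹ *
          (s * ((c.out : I) : Ω ≃ₐ[ℚ] Ω)) ∈ J := h2
      have h4 := hfix _ h3
      rw [AlgEquiv.mul_apply, AlgEquiv.mul_apply] at h4
      have h5 := congrArg ((((⟨s, hs⟩ : I) • c).out : I) : Ω ≃ₐ[ℚ] Ω) h4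
      rw [← AlgEquiv.mul_apply, mul_inv_cancel, AlgEquiv.one_apply] at h5
      exact h5
    rw [Finset.prod_congr rfl (fun c _ => h1 c)]
    exact Equiv.prod_comp (MulAction.toPerm (⟨s, hs⟩ : I))
      (fun c : I ⧸ J' => ((c.out : I) : Ω ≃ₐ[ℚ] Ω) θ)
  obtain ⟨n, hn⟩ := SEL.exists_valuation_zpow_of_inertia A hp hA hN0 hNfix
  refine ⟨n, ?_⟩
  rw [← hn]
  show _ = A.valuation (∏ c : I ⧸ J', ((c.out : I) : Ω ≃ₐ[ℚ] Ω) θ)
  rw [map_prod, Finset.prod_congr rfl (fun c _ => val_smul c.out.2 θ), Finset.prod_const,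
    Finset.card_univ, ← Nat.card_eq_fintype_card]
  rfl

/-- (1) of KFIELD -/
theorem val_zpow (hp : p.Prime) (hA : A.LiesOverPrime p) {θ : Ω} (hθ : θ ≠ 0)
    (hfix : ∀ s ∈ A.inertiaSubgroupIn ℚ, s θ = θ) :
    ∃ n : ℤ, A.valuation θ = A.valuation (p : Ω) ^ n :=
  SEL.exists_valuation_zpow_of_inertia A hp hA hθ hfix

/-- (3) of KFIELD -/
theorem val_pow_prime (hp : p.Prime) (hA : A.LiesOverPrime p) (J : Subgroup (Ω ≃ₐ[ℚ] Ω))
    (hJ : J.relIndex (A.inertiaSubgroupIn ℚ) ∣ p) {θ : Ω} (hθ : θ ≠ 0)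
    (hfix : ∀ s ∈ J, s θ = θ) :
    ∃ n : ℤ, A.valuation θ ^ p = A.valuation (p : Ω) ^ n := by
  have h0 : J.relIndex (A.inertiaSubgroupIn ℚ) ≠ 0 := fun h => by
    rw [h, zero_dvd_iff] at hJ
    exact hp.ne_zero hJ
  obtain ⟨n, hn⟩ := val_pow_index hp hA J h0 hθ hfix
  obtain ⟨d, hd⟩ := hJ
  refine ⟨n * d, ?_⟩
  rw [zpow_mul, ← hn, zpow_natCast, ← pow_mul, ← hd]

end Fermat.Agent.KField
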