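import Mathlib
import Fermat.Agent.EC.Inertia
import Fermat.Agent.SEL.Val
import Fermat.Agent.QuadRep.RootsOfUnity
import Fermat.Agent.HeckeRed.Residue

/-!
# The fixed field of an inertia group
-/

set_option autoImplicit false

open Polynomial

namespace Fermat.Agent.KField

-- use the algebra structures coming from `Ω`
attribute [-instance] DivisionRing.toRatAlgebra

section orbit

variable {Ω : Type*} [Field Ω] [Algebra ℚ Ω] [Algebra.IsAlgebraic ℚ Ω] {A : ValuationSubring Ω}

omit [Algebra.IsAlgebraic ℚ Ω] in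
lemma val_le_one_iff {σ : Ω ≃ₐ[ℚ] Ω} (hσ : σ ∈ A.inertiaSubgroupIn ℚ) (x : Ω) :
    A.valuation (σ x) ≤ 1 ↔ A.valuation x ≤ 1 := by
  have h := EC.trivMod_of_mem_inertia A hσ
  constructor
  · intro h1
    by_contra h2
    exact absurd (h.pole x (not_le.1 h2)) (not_lt.2 h1)
  · intro h1
    have h2 : σ x = (σ x - x) + x := by ring
    rw [h2]
    exact (A.valuation.map_add _ _).trans (max_le (h.int x h1).le h1)

omit [Algebra.IsAlgebraic ℚ Ω] in
lemma val_le_iff {σ : Ω ≃ₐ[ℚ] Ω} (hσ : σ ∈ A.inertiaSubgroupIn ℚ) (x y : Ω) :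
    A.valuation (σ x) ≤ A.valuation (σ y) ↔ A.valuation x ≤ A.valuation y := by
  by_cases hy : y = 0
  · subst hy
    rw [map_zero, map_zero, le_zero_iff, le_zero_iff, Valuation.zero_iff, Valuation.zero_iff]
    exact map_eq_zero σ
  · have h1 : 0 < A.valuation y := (Valuation.pos_iff _).2 hy
    have h2 : 0 < A.valuation (σ y) := (Valuation.pos_iff _).2 ((map_ne_zero σ).2 hy)
    have h3 := val_le_one_iff hσ (x / y)
    rw [map_div₀, map_div₀, map_div₀, div_le_one₀ h2, div_le_one₀ h1] at h3
    exact h3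

lemma exists_pow_fix (σ : Ω ≃ₐ[ℚ] Ω) (x : Ω) : ∃ n : ℕ, 0 < n ∧ (σ ^ n) x = x := by
  have hfin : Finite ((minpoly ℚ x).rootSet Ω) := inferInstance
  have hx : IsIntegral ℚ x := Algebra.IsIntegral.isIntegral x
  let f : ℕ → (minpoly ℚ x).rootSet Ω := fun n => ⟨(σ ^ n) x, by
    rw [Polynomial.mem_rootSet]
    refine ⟨minpoly.ne_zero hx, ?_⟩
    have := Polynomial.aeval_algHom_apply ((σ ^ n : Ω ≃ₐ[ℚ] Ω) : Ω →ₐ[ℚ] Ω) x (minpoly ℚ x)
    rw [minpoly.aeval, map_zero] at this
    exact this⟩
  obtain ⟨i, j, hij, h⟩ := Finite.exists_ne_map_eq_of_infinite f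
  wlog hlt : i < j generalizing i j
  · exact this j i hij.symm h.symm (lt_of_le_of_ne (not_lt.1 hlt) hij.symm)
  refine ⟨j - i, by omega, ?_⟩
  have h1 : (σ ^ i) x = (σ ^ j) x := congrArg Subtype.val h
  have h2 : (σ ^ j) x = (σ ^ i) ((σ ^ (j - i)) x) := by
    rw [← AlgEquiv.mul_apply, ← pow_add, Nat.add_sub_cancel' hlt.le]
  rw [h2] at h1
  exact ((σ ^ i).injective h1).symm

/-- inertia preserves the valuation -/
theorem val_smul {σ : Ω ≃ₐ[ℚ] Ω} (hσ : σ ∈ A.inertiaSubgroupIn ℚ) (x : Ω) :
    A.valuation (σ x) = A.valuation x := by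
  obtain ⟨n, hn, hx⟩ := exists_pow_fix σ x
  have key : ∀ k : ℕ, A.valuation (σ x) < A.valuation x →
      A.valuation ((σ ^ (k + 1)) x) < A.valuation x := by
    intro k h
    induction k with
    | zero => simpa using h
    | succ k ih =>
      rw [pow_succ', AlgEquiv.mul_apply]
      refine lt_trans ?_ h
      rw [lt_iff_not_ge] at ih ⊢
      rw [val_le_iff hσ]
      exact ih
  have key' : ∀ k : ℕ, A.valuation x < A.valuation (σ x) →
      A.valuation x < A.valuation ((σ ^ (k + 1)) x) := by
    intro k h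
    induction k with
    | zero => simpa using h
    | succ k ih =>
      rw [pow_succ', AlgEquiv.mul_apply]
      refine lt_trans h ?_
      rw [lt_iff_not_ge] at ih ⊢
      rw [val_le_iff hσ]
      exact ih
  obtain ⟨k, rfl⟩ : ∃ k, n = k + 1 := ⟨n - 1, by omega⟩
  rcases lt_trichotomy (A.valuation (σ x)) (A.valuation x) with h | h | h
  · have := key k h
    rw [hx] at this
    exact absurd this (lt_irrefl _)
  · exact h
  · have := key' k h
    rw [hx] at this
    exact absurd this (lt_irrefl _)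

end orbit

section residue

variable {Ω : Type*} [Field Ω] [Algebra ℚ Ω] {A : ValuationSubring Ω} {p : ℕ}

/-- the residue field is algebraic over the prime field -/
theorem exists_pow_sub_one [Algebra.IsAlgebraic ℚ Ω] (hp : p.Prime) (hA : A.LiesOverPrime p)
    {a : Ω} (ha : A.valuation a = 1) :
    ∃ m : ℕ, 0 < m ∧ m.Coprime p ∧ A.valuation (a ^ m - 1) < 1 := by
  have hchar : CharP (IsLocalRing.ResidueField A) p := HeckeRed.charP_residueField hp hA
  have hfp : Fact p.Prime := ⟨hp⟩
  have haA : a ∈ A := (A.valuation_le_one_iff a).1 ha.le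
  let _ : Algebra (ZMod p) (IsLocalRing.ResidueField A) := ZMod.algebra _ p
  set b : IsLocalRing.ResidueField A := IsLocalRing.residue A ⟨a, haA⟩ with hb
  have hcharΩ : CharZero Ω := charZero_of_injective_algebraMap (algebraMap ℚ Ω).injective
  have halg : IsAlgebraic (ZMod p) b := by
    have h1 : IsAlgebraic ℤ a :=
      (IsFractionRing.isAlgebraic_iff ℤ ℚ Ω).2 (Algebra.IsAlgebraic.isAlgebraic (R := ℚ) a)
    obtain ⟨P, hP0, hP⟩ := h1
    have h2 : aeval a P.primPart = 0 := by
      have h3 := P.eq_C_content_mul_primPart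
      rw [h3, map_mul, aeval_C] at hP
      rcases mul_eq_zero.1 hP with h4 | h4
      · exfalso
        have h5 : (algebraMap ℤ Ω) P.content = ((P.content : ℤ) : Ω) := by simp
        rw [h5, Int.cast_eq_zero] at h4
        exact hP0 (content_eq_zero_iff.1 h4)
      · exact h4
    refine ⟨P.primPart.map (Int.castRingHom (ZMod p)), ?_, ?_⟩
    · intro h3
      have h4 : C (p : ℤ) ∣ P.primPart := by
        rw [C_dvd_iff_dvd_coeff]
        intro i
        have h5 := congrArg (fun Q => coeff Q i) h3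
        simp only [coeff_map, coeff_zero] at h5
        exact (ZMod.intCast_zmod_eq_zero_iff_dvd _ p).1 h5
      have h5 := P.isPrimitive_primPart (p : ℤ) h4
      rw [Int.isUnit_iff] at h5
      have := hp.one_lt
      omega
    · rw [aeval_def, eval₂_map]
      have h3 : (algebraMap (ZMod p) (IsLocalRing.ResidueField A)).comp
          (Int.castRingHom (ZMod p)) =
          ((IsLocalRing.residue A).comp (Int.castRingHom A)) := Subsingleton.elim _ _
      rw [h3, hb, ← hom_eval₂]
      have h4 : eval₂ (Int.castRingHom A) ⟨a, haA⟩ P.primPart = 0 := by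
        apply A.subtype_injective
        rw [hom_eval₂, map_zero]
        rw [aeval_def] at h2
        have h5 : A.subtype.comp (Int.castRingHom A) = algebraMap ℤ Ω := Subsingleton.elim _ _
        rw [h5]
        exact h2
      rw [h4, map_zero]
  have hint : IsIntegral (ZMod p) b := halg.isIntegral
  have hfd : FiniteDimensional (ZMod p) (IntermediateField.adjoin (ZMod p) {b}) :=
    IntermediateField.adjoin.finiteDimensional hint
  have hfin : Finite (IntermediateField.adjoin (ZMod p) {b}) :=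
    Module.finite_of_finite (ZMod p)
  set F := IntermediateField.adjoin (ZMod p) {b}
  let _ : Fintype F := Fintype.ofFinite F
  have hcard : Fintype.card F = p ^ Module.finrank (ZMod p) F := by
    have := Module.card_eq_pow_finrank (K := ZMod p) (V := F)
    rwa [ZMod.card] at this
  have hf0 : Module.finrank (ZMod p) F ≠ 0 := Module.finrank_pos.ne'
  have hgt : 1 < p ^ Module.finrank (ZMod p) F := Nat.one_lt_pow hf0 hp.one_lt
  refine ⟨p ^ Module.finrank (ZMod p) F - 1, by omega, ?_, ?_⟩
  · rw [Nat.coprime_comm, Nat.Prime.coprime_iff_not_dvd hp]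
    intro hdvd
    have h1 : p ∣ p ^ Module.finrank (ZMod p) F := dvd_pow_self _ hf0
    have h2 := Nat.dvd_sub h1 hdvd
    rw [Nat.sub_sub_self hgt.le] at h2
    exact hp.one_lt.ne' (Nat.dvd_one.1 h2)
  · have hb0 : (⟨b, IntermediateField.mem_adjoin_simple_self _ b⟩ : F) ≠ 0 := by
      intro h
      have h1 : b = 0 := congrArg Subtype.val h
      rw [hb, IsLocalRing.residue_eq_zero_iff] at h1
      exact absurd ha ((A.valuation_lt_one_iff _).mp h1).ne
    have h1 := FiniteField.pow_card_sub_one_eq_one _ hb0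
    rw [hcard] at h1
    have h2 : b ^ (p ^ Module.finrank (ZMod p) F - 1) = 1 := congrArg Subtype.val h1
    rw [hb, ← map_pow, ← sub_eq_zero, ← map_one (IsLocalRing.residue A), ← map_sub,
      IsLocalRing.residue_eq_zero_iff] at h2
    exact (A.valuation_lt_one_iff _).mp h2

/-- every residue class contains an element fixed by inertia. -/
theorem exists_fixed_residue [IsAlgClosed Ω] [IsGalois ℚ Ω] (hp : p.Prime)
    (hA : A.LiesOverPrime p) {a : Ω} (ha : A.valuation a ≤ 1) :
    ∃ b, A.valuation b ≤ 1 ∧ (∀ s ∈ A.inertiaSubgroupIn ℚ, s b = b) ∧ A.valuation (a - b) < 1 := by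
  rcases ha.lt_or_eq with h | h
  · exact ⟨0, by simp, fun s _ => map_zero s, by rwa [sub_zero]⟩
  have hcharΩ : CharZero Ω := charZero_of_injective_algebraMap (algebraMap ℚ Ω).injective
  obtain ⟨m, hm, hmp, hv⟩ := exists_pow_sub_one hp hA h
  have : NeZero m := ⟨hm.ne'⟩
  obtain ⟨ζ, hζ⟩ := HasEnoughRootsOfUnity.exists_primitiveRoot Ω m
  have h1 : a ^ m - 1 = ∏ μ ∈ nthRootsFinset m (1 : Ω), (a - μ) := by
    have h2 := congrArg (fun Q => eval a Q) (X_pow_sub_one_eq_prod hm hζ)
    simpa [eval_prod] using h2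
  rw [h1, map_prod] at hv
  obtain ⟨μ, hμ, hμv⟩ : ∃ μ ∈ nthRootsFinset m (1 : Ω), A.valuation (a - μ) < 1 := by
    by_contra hcon
    push Not at hcon
    exact absurd (Finset.one_le_prod' hcon) (not_le.2 hv)
  have hμ1 : μ ^ m = 1 := (mem_nthRootsFinset hm 1).1 hμ
  have hμv1 : A.valuation μ = 1 := by
    have h3 : A.valuation μ ^ m = 1 := by rw [← map_pow, hμ1, map_one]
    exact (pow_eq_one_iff_of_nonneg zero_le hm.ne').1 h3
  exact ⟨μ, hμv1.le, fun s hs => QuadRep.inertia_smul_root hp hA hs hm hmp μ hμ1, hμv⟩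

end residue

end Fermat.Agent.KField
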