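import Fermat.Agent.KField.Ram

/-!
# The different of the ramified extension
-/

set_option autoImplicit false

namespace Fermat.Agent.KField

-- use the algebra structures coming from `Ω`
attribute [-instance] DivisionRing.toRatAlgebra

variable {Ω : Type*} [Field Ω] [Algebra ℚ Ω] [IsGalois ℚ Ω] [IsAlgClosed Ω]
  {A : ValuationSubring Ω} {p : ℕ}

omit [Algebra ℚ Ω] [IsGalois ℚ Ω] [IsAlgClosed Ω] in
lemma val_p_lt (hA : A.LiesOverPrime p) : A.valuation (p : Ω) < 1 := by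
  have h : (p : Ω) ∈ A.nonunits := hA
  rwa [ValuationSubring.mem_nonunits_iff] at h

omit [IsGalois ℚ Ω] [IsAlgClosed Ω] in
lemma val_p_pos (hp : p.Prime) : 0 < A.valuation (p : Ω) := by
  have hchar : CharZero Ω := charZero_of_injective_algebraMap (algebraMap ℚ Ω).injective
  exact (Valuation.pos_iff _).2 (Nat.cast_ne_zero.2 hp.ne_zero)

/-- a uniformiser of the ramified extension. -/
theorem exists_unif (hp : p.Prime) (hp2 : p ≠ 2) (hA : A.LiesOverPrime p)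
    (J : Subgroup (Ω ≃ₐ[ℚ] Ω)) (hJI : J ≤ A.inertiaSubgroupIn ℚ)
    (hJ : J.relIndex (A.inertiaSubgroupIn ℚ) ∣ p) {lam : Ω}
    (hlam : A.valuation lam ^ (p - 1) = A.valuation (p : Ω)) {β : Ω} (hβ : A.valuation β = 1)
    (hβJ : ∀ s ∈ J, s β = β)
    (h1 : ∀ s ∈ A.inertiaSubgroupIn ℚ, A.valuation (s β / β - 1) ≤ A.valuation lam)
    {s₀ : Ω ≃ₐ[ℚ] Ω} (hs₀ : s₀ ∈ A.inertiaSubgroupIn ℚ)
    (h2 : A.valuation (s₀ β / β - 1) = A.valuation lam) :
    ∃ ν : Ω, ν ≠ 0 ∧ A.valuation ν ^ p = A.valuation (p : Ω) ∧ (∀ s ∈ J, s ν = ν) ∧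
      (∀ s ∈ A.inertiaSubgroupIn ℚ, A.valuation (s ν - ν) ≤ A.valuation lam) ∧
      A.valuation (s₀ ν - ν) = A.valuation lam := by
  have hP1 := val_p_lt hA
  have hP0 := val_p_pos (A := A) hp
  have hp3 : 3 ≤ p := by
    have := hp.two_le
    omega
  have hlam0 : A.valuation lam ≠ 0 := by
    intro h
    rw [h, zero_pow (by omega)] at hlam
    exact hP0.ne hlam
  have hβ0 : β ≠ 0 := by
    rintro rfl
    rw [map_zero] at hβ
    exact zero_ne_one hβ
  obtain ⟨c, hc1, hcI, hcv⟩ := exists_fixed_residue hp hA hβ.le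
  have hdiff : ∀ s ∈ A.inertiaSubgroupIn ℚ, A.valuation (s (β - c) - (β - c)) =
      A.valuation (s β / β - 1) := by
    intro s hs
    have e : s (β - c) - (β - c) = β * (s β / β - 1) := by
      rw [map_sub, hcI s hs]
      field_simp
      ring
    rw [e, map_mul, hβ, one_mul]
  have hνv : A.valuation lam ≤ A.valuation (β - c) := by
    rw [← h2, ← hdiff s₀ hs₀]
    refine (A.valuation.map_sub _ _).trans ?_
    rw [val_smul hs₀, max_self]
  have hν0 : β - c ≠ 0 := by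
    intro h
    rw [h, map_zero, le_zero_iff] at hνv
    exact hlam0 hνv
  have hνJ : ∀ s ∈ J, s (β - c) = β - c := fun s hs => by
    rw [map_sub, hβJ s hs, hcI s (hJI hs)]
  obtain ⟨n, hn⟩ := val_pow_prime hp hA J hJ hν0 hνJ
  have hanti := zpow_right_strictAnti₀ hP0 hP1
  have hn1 : 0 < n := by
    have h3 : A.valuation (p : Ω) ^ n < A.valuation (p : Ω) ^ (0 : ℤ) := by
      rw [← hn, zpow_zero]
      exact pow_lt_one₀ zero_le hcv hp.ne_zero
    exact hanti.lt_iff_gt.1 h3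
  have hn2 : n < 2 := by
    by_contra hcon
    push Not at hcon
    have h3 : A.valuation lam ^ (p * (p - 1)) ≤ A.valuation (β - c) ^ (p * (p - 1)) :=
      pow_le_pow_left₀ zero_le hνv _
    rw [mul_comm, pow_mul, hlam, mul_comm, pow_mul, hn, ← zpow_natCast, ← zpow_natCast,
      ← zpow_mul] at h3
    have h4 := hanti.le_iff_ge.1 h3
    have h5 : ((p - 1 : ℕ) : ℤ) = (p : ℤ) - 1 := by
      rw [Nat.cast_sub hp.one_le, Nat.cast_one]
    rw [h5] at h4
    have h6 : 2 * ((p : ℤ) - 1) ≤ n * ((p : ℤ) - 1) :=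
      mul_le_mul_of_nonneg_right hcon (by omega)
    omega
  have hn3 : n = 1 := by omega
  rw [hn3, zpow_one] at hn
  exact ⟨β - c, hν0, hn, hνJ, fun s hs => by rw [hdiff s hs]; exact h1 s hs,
    by rw [hdiff s₀ hs₀, h2]⟩

/-- (4a) of KFIELD, in terms of a uniformiser -/
theorem val_sub_le_aux (hp : p.Prime) (hA : A.LiesOverPrime p)
    (J : Subgroup (Ω ≃ₐ[ℚ] Ω)) (hJI : J ≤ A.inertiaSubgroupIn ℚ)
    (hJ : J.relIndex (A.inertiaSubgroupIn ℚ) ∣ p) {lam : Ω}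
    (hlam : A.valuation lam ^ (p - 1) = A.valuation (p : Ω)) {ν : Ω} (hν0 : ν ≠ 0)
    (hνp : A.valuation ν ^ p = A.valuation (p : Ω)) (hνJ : ∀ s ∈ J, s ν = ν)
    (h1 : ∀ s ∈ A.inertiaSubgroupIn ℚ, A.valuation (s ν - ν) ≤ A.valuation lam)
    {a : Ω} (ha : A.valuation a ≤ 1) (haJ : ∀ s ∈ J, s a = a) {s : Ω ≃ₐ[ℚ] Ω}
    (hs : s ∈ A.inertiaSubgroupIn ℚ) : A.valuation (s a - a) ≤ A.valuation lam := by
  have hP1 := val_p_lt hA
  have hP0 := val_p_pos (A := A) hp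
  have hanti := zpow_right_strictAnti₀ hP0 hP1
  have hp2 := hp.two_le
  obtain ⟨c₀, hc₀, hc₀I, hv₀⟩ := exists_fixed_residue hp hA ha
  have ha₁J : ∀ s ∈ J, s (a - c₀) = a - c₀ := fun s hs => by
    rw [map_sub, haJ s hs, hc₀I s (hJI hs)]
  have e1 : s a - a = s (a - c₀) - (a - c₀) := by
    rw [map_sub, hc₀I s hs]; ring
  by_cases h0 : a - c₀ = 0
  · rw [e1, h0, map_zero, sub_zero, map_zero]
    exact zero_le
  obtain ⟨n, hn⟩ := val_pow_prime hp hA J hJ h0 ha₁J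
  have hn1 : 1 ≤ n := by
    have h3 : A.valuation (p : Ω) ^ n < A.valuation (p : Ω) ^ (0 : ℤ) := by
      rw [← hn, zpow_zero]
      exact pow_lt_one₀ zero_le hv₀ hp.ne_zero
    have := hanti.lt_iff_gt.1 h3
    omega
  have hle : A.valuation (a - c₀) ≤ A.valuation ν := by
    refine (pow_le_pow_iff_left₀ zero_le zero_le hp.ne_zero).1 ?_
    rw [hn, hνp]
    conv_rhs => rw [← zpow_one (A.valuation (p : Ω))]
    exact hanti.le_iff_ge.2 hn1
  have hνv0 : 0 < A.valuation ν := (Valuation.pos_iff _).2 hν0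
  have hu : A.valuation ((a - c₀) / ν) ≤ 1 := by
    rw [map_div₀]
    exact (div_le_one₀ hνv0).2 hle
  obtain ⟨c₁, hc₁, hc₁I, hv₁⟩ := exists_fixed_residue hp hA hu
  set a₂ := (a - c₀) - c₁ * ν with ha₂
  have ha₂v : A.valuation a₂ < A.valuation ν := by
    have e2 : a₂ = ((a - c₀) / ν - c₁) * ν := by
      rw [ha₂]; field_simp
    rw [e2, map_mul]
    exact mul_lt_of_lt_one_left hνv0 hv₁
  have ha₂J : ∀ s ∈ J, s a₂ = a₂ := fun s hs => by
    rw [ha₂, map_sub, ha₁J s hs, map_mul, hc₁I s (hJI hs), hνJ s hs]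
  have ha₂l : A.valuation a₂ ≤ A.valuation lam := by
    by_cases h3 : a₂ = 0
    · rw [h3, map_zero]; exact zero_le
    obtain ⟨m, hm⟩ := val_pow_prime hp hA J hJ h3 ha₂J
    have hm2 : 2 ≤ m := by
      have h4 : A.valuation (p : Ω) ^ m < A.valuation (p : Ω) ^ (1 : ℤ) := by
        rw [← hm, zpow_one, ← hνp]
        exact pow_lt_pow_left₀ ha₂v zero_le hp.ne_zero
      have := hanti.lt_iff_gt.1 h4
      omega
    refine (pow_le_pow_iff_left₀ zero_le zero_le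
      (Nat.mul_ne_zero hp.ne_zero (by omega : p - 1 ≠ 0))).1 ?_
    have e3 : A.valuation lam ^ (p * (p - 1)) = A.valuation (p : Ω) ^ (p : ℤ) := by
      rw [mul_comm, pow_mul, hlam, zpow_natCast]
    rw [e3, pow_mul, hm, ← zpow_natCast, ← zpow_mul]
    refine hanti.le_iff_ge.2 ?_
    have h5 : ((p - 1 : ℕ) : ℤ) = (p : ℤ) - 1 := by
      rw [Nat.cast_sub hp.one_le, Nat.cast_one]
    rw [h5]
    have h6 : 2 * ((p : ℤ) - 1) ≤ m * ((p : ℤ) - 1) :=
      mul_le_mul_of_nonneg_right hm2 (by omega)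
    omega
  have e4 : s a - a = c₁ * (s ν - ν) + (s a₂ - a₂) := by
    rw [e1, ha₂]
    simp only [map_sub, map_mul, hc₁I s hs]
    ring
  rw [e4]
  refine (A.valuation.map_add _ _).trans (max_le ?_ ?_)
  · rw [map_mul]
    exact (mul_le_of_le_one_left zero_le hc₁).trans (h1 s hs)
  · refine (A.valuation.map_sub _ _).trans ?_
    rw [val_smul hs, max_self]
    exact ha₂l

/-- **(4a) of KFIELD** -/
theorem val_sub_le (hp : p.Prime) (hp2 : p ≠ 2) (hA : A.LiesOverPrime p)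
    (J : Subgroup (Ω ≃ₐ[ℚ] Ω)) (hJI : J ≤ A.inertiaSubgroupIn ℚ)
    (hJ : J.relIndex (A.inertiaSubgroupIn ℚ) ∣ p) {lam : Ω}
    (hlam : A.valuation lam ^ (p - 1) = A.valuation (p : Ω)) {β : Ω} (hβ : A.valuation β = 1)
    (hβJ : ∀ s ∈ J, s β = β)
    (h1 : ∀ s ∈ A.inertiaSubgroupIn ℚ, A.valuation (s β / β - 1) ≤ A.valuation lam)
    (h2 : ∀ s ∈ A.inertiaSubgroupIn ℚ, s ∉ J → A.valuation (s β / β - 1) = A.valuation lam)
    {a : Ω} (ha : A.valuation a ≤ 1) (haJ : ∀ s ∈ J, s a = a) {s : Ω ≃ₐ[ℚ] Ω}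
    (hs : s ∈ A.inertiaSubgroupIn ℚ) : A.valuation (s a - a) ≤ A.valuation lam := by
  by_cases hsJ : s ∈ J
  · rw [haJ s hsJ, sub_self, map_zero]; exact zero_le
  obtain ⟨ν, hν0, hνp, hνJ, hν1, -⟩ := exists_unif hp hp2 hA J hJI hJ hlam hβ hβJ h1 hs
    (h2 s hs hsJ)
  exact val_sub_le_aux hp hA J hJI hJ hlam hν0 hνp hνJ hν1 ha haJ hs

omit [Algebra ℚ Ω] [IsGalois ℚ Ω] [IsAlgClosed Ω] in
lemma val_geom (δ : Ω) (hδ : A.valuation δ < 1) (j : ℕ) :
    A.valuation (∑ k ∈ Finset.range j, (1 + δ) ^ k) ≤ 1 ∧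
      A.valuation ((1 + δ) ^ j - 1) ≤ A.valuation δ := by
  have h1 : A.valuation (1 + δ) ≤ 1 :=
    (A.valuation.map_add _ _).trans (max_le (by rw [map_one]) hδ.le)
  have h2 : A.valuation (∑ k ∈ Finset.range j, (1 + δ) ^ k) ≤ 1 :=
    A.valuation.map_sum_le fun k _ => by rw [map_pow]; exact pow_le_one₀ zero_le h1
  refine ⟨h2, ?_⟩
  have h3 : (1 + δ) ^ j - 1 = (∑ k ∈ Finset.range j, (1 + δ) ^ k) * δ := by
    rw [← geom_sum_mul, add_sub_cancel_left]
  rw [h3, map_mul]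
  exact mul_le_of_le_one_left zero_le h2

omit [Algebra ℚ Ω] [IsGalois ℚ Ω] [IsAlgClosed Ω] in
lemma val_pow_sub_one (hp : p.Prime) (hA : A.LiesOverPrime p) (δ : Ω) (hδ : A.valuation δ < 1)
    {i : ℕ} (hi : ¬ p ∣ i) : A.valuation ((1 + δ) ^ i - 1) = A.valuation δ := by
  have hi1 : A.valuation (i : Ω) = 1 := by
    have hle : ∀ n : ℕ, A.valuation (n : Ω) ≤ 1 := fun n =>
      (A.valuation_le_one_iff _).2 (natCast_mem A n)
    refine le_antisymm (hle i) ?_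
    by_contra hcon
    push Not at hcon
    have hcop : IsCoprime (i : ℤ) (p : ℤ) :=
      Nat.isCoprime_iff_coprime.2 (Nat.Coprime.symm ((Nat.Prime.coprime_iff_not_dvd hp).2 hi))
    obtain ⟨x, y, hxy⟩ := hcop
    have h1 : (x : Ω) * i + y * p = 1 := by exact_mod_cast congrArg (fun t : ℤ => (t : Ω)) hxy
    have h2 : A.valuation ((x : Ω) * i + y * p) < 1 := by
      have hz : ∀ z : ℤ, A.valuation (z : Ω) ≤ 1 := fun z =>
        (A.valuation_le_one_iff _).2 (intCast_mem A z)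
      refine lt_of_le_of_lt (A.valuation.map_add _ _) (max_lt ?_ ?_)
      · rw [map_mul]
        exact lt_of_le_of_lt (mul_le_of_le_one_left zero_le (hz x)) hcon
      · rw [map_mul]
        exact lt_of_le_of_lt (mul_le_of_le_one_left zero_le (hz y)) (val_p_lt hA)
    rw [h1, map_one] at h2
    exact lt_irrefl _ h2
  have h3 : (1 + δ) ^ i - 1 = (∑ k ∈ Finset.range i, (1 + δ) ^ k) * δ := by
    rw [← geom_sum_mul, add_sub_cancel_left]
  have h4 : (∑ k ∈ Finset.range i, (1 + δ) ^ k) =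
      (i : Ω) + ∑ k ∈ Finset.range i, ((1 + δ) ^ k - 1) := by
    rw [Finset.sum_sub_distrib]
    simp
  have h5 : A.valuation (∑ k ∈ Finset.range i, ((1 + δ) ^ k - 1)) < 1 :=
    lt_of_le_of_lt (A.valuation.map_sum_le fun k _ => (val_geom δ hδ k).2) hδ
  have h6 : A.valuation (∑ k ∈ Finset.range i, (1 + δ) ^ k) = 1 := by
    rw [h4, A.valuation.map_add_eq_of_lt_left, hi1]
    rw [hi1]; exact h5
  rw [h3, map_mul, h6, one_mul]

/-- **(4b) of KFIELD** -/
theorem val_zpow_of_sub (hp : p.Prime) (hp2 : p ≠ 2) (hA : A.LiesOverPrime p)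
    (J : Subgroup (Ω ≃ₐ[ℚ] Ω)) (hJI : J ≤ A.inertiaSubgroupIn ℚ)
    (hJ : J.relIndex (A.inertiaSubgroupIn ℚ) ∣ p) {lam : Ω}
    (hlam : A.valuation lam ^ (p - 1) = A.valuation (p : Ω)) {β : Ω} (hβ : A.valuation β = 1)
    (hβJ : ∀ s ∈ J, s β = β)
    (h1 : ∀ s ∈ A.inertiaSubgroupIn ℚ, A.valuation (s β / β - 1) ≤ A.valuation lam)
    (h2 : ∀ s ∈ A.inertiaSubgroupIn ℚ, s ∉ J → A.valuation (s β / β - 1) = A.valuation lam)
    {θ : Ω} (hθ : θ ≠ 0) (hθJ : ∀ s ∈ J, s θ = θ)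
    (hθ1 : ∀ s ∈ A.inertiaSubgroupIn ℚ, A.valuation (s θ / θ - 1) ≤ A.valuation lam) :
    ∃ n : ℤ, A.valuation θ = A.valuation (p : Ω) ^ n := by
  by_cases hex : ∃ s₀ ∈ A.inertiaSubgroupIn ℚ, s₀ ∉ J
  swap
  · push Not at hex
    exact val_zpow hp hA hθ fun s hs => hθJ s (hex s hs)
  obtain ⟨s₀, hs₀, hs₀J⟩ := hex
  obtain ⟨ν, hν0, hνp, hνJ, hν1, hν2⟩ := exists_unif hp hp2 hA J hJI hJ hlam hβ hβJ h1 hs₀
    (h2 s₀ hs₀ hs₀J)
  have hP1 := val_p_lt hA
  have hP0 := val_p_pos (A := A) hp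
  have hanti := zpow_right_strictAnti₀ hP0 hP1
  have hp0 : (p : Ω) ≠ 0 := (Valuation.pos_iff _).1 hP0
  have hνv0 : 0 < A.valuation ν := (Valuation.pos_iff _).2 hν0
  obtain ⟨k, hk⟩ := val_pow_prime hp hA J hJ hθ hθJ
  have hpz : (p : ℤ) ≠ 0 := by exact_mod_cast hp.ne_zero
  obtain ⟨i, hi⟩ : ∃ i : ℕ, (i : ℤ) = k % p := ⟨(k % p).toNat,
    Int.toNat_of_nonneg (Int.emod_nonneg k hpz)⟩
  have hip : i < p := by
    have := Int.emod_lt_of_pos k (by exact_mod_cast hp.pos : (0 : ℤ) < p)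
    omega
  have hkd : k = p * (k / p) + i := by rw [hi]; exact (Int.mul_ediv_add_emod k p).symm
  set m := k / p with hm
  by_cases hi0 : i = 0
  · refine ⟨m, ?_⟩
    rw [hi0] at hkd
    have h3 : A.valuation θ ^ p = (A.valuation (p : Ω) ^ m) ^ p := by
      rw [hk, hkd, ← zpow_natCast (A.valuation (p : Ω) ^ m), ← zpow_mul]
      congr 1
      push_cast
      ring
    exact (pow_left_inj₀ zero_le zero_le hp.ne_zero).1 h3
  exfalso
  set u := θ / ((p : Ω) ^ m * ν ^ i) with hu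
  have hden : (p : Ω) ^ m * ν ^ i ≠ 0 := mul_ne_zero (zpow_ne_zero _ hp0) (pow_ne_zero _ hν0)
  have hu0 : u ≠ 0 := div_ne_zero hθ hden
  have hθu : θ = (p : Ω) ^ m * ν ^ i * u := by
    rw [hu]; field_simp
  have huv : A.valuation u = 1 := by
    have h3 : A.valuation u ^ p = 1 := by
      rw [hu, map_div₀, map_mul, map_zpow₀, map_pow, div_pow, mul_pow, hk, ← pow_mul, mul_comm i p,
        pow_mul, hνp, ← zpow_natCast (A.valuation (p : Ω) ^ m), ← zpow_mul, ← zpow_natCast _ i,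
        ← zpow_add₀ hP0.ne', mul_comm m, ← hkd]
      exact div_self (zpow_ne_zero _ hP0.ne')
    exact (pow_eq_one_iff_of_nonneg zero_le hp.ne_zero).1 h3
  have huJ : ∀ s ∈ J, s u = u := fun s hs => by
    rw [hu, map_div₀, hθJ s hs, map_mul, map_zpow₀, map_natCast, map_pow, hνJ s hs]
  have hε := val_sub_le_aux hp hA J hJI hJ hlam hν0 hνp hνJ hν1 huv.le huJ hs₀
  set δ := s₀ ν / ν - 1 with hδ
  have hδv : A.valuation δ = A.valuation lam / A.valuation ν := by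
    have e : δ = (s₀ ν - ν) / ν := by rw [hδ]; field_simp
    rw [e, map_div₀, hν2]
  have hlam0 : 0 < A.valuation lam := by
    rw [zero_lt_iff]
    intro h
    rw [h, zero_pow (by have := hp.two_le; omega)] at hlam
    exact hP0.ne hlam
  have hνlt1 : A.valuation ν < 1 := by
    by_contra hcon
    push Not at hcon
    have := one_le_pow₀ (n := p) hcon
    rw [hνp] at this
    exact absurd hP1 (not_lt.2 this)
  have hlamν : A.valuation lam < A.valuation ν := by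
    refine (pow_lt_pow_iff_left₀ zero_le zero_le
      (Nat.mul_ne_zero hp.ne_zero (by have := hp.two_le; omega : p - 1 ≠ 0))).1 ?_
    rw [mul_comm, pow_mul, hlam, mul_comm, pow_mul, hνp]
    exact pow_lt_pow_right_of_lt_one₀ hP0 hP1 (by have := hp.two_le; omega)
  have hδ1 : A.valuation δ < 1 := by
    rw [hδv]; exact (div_lt_one₀ hνv0).2 hlamν
  have hδl : A.valuation lam < A.valuation δ := by
    rw [hδv, lt_div_iff₀ hνv0]
    exact mul_lt_of_lt_one_right hlam0 hνlt1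
  have hdi : ¬ p ∣ i := fun h => hi0 (Nat.eq_zero_of_dvd_of_lt h hip)
  have h4 := val_pow_sub_one hp hA δ hδ1 hdi
  have e5 : s₀ θ / θ - 1 = ((1 + δ) ^ i - 1) + (1 + δ) ^ i * ((s₀ u - u) / u) := by
    have e6 : s₀ θ = (p : Ω) ^ m * (s₀ ν) ^ i * s₀ u := by
      conv_lhs => rw [hθu]
      simp only [map_mul, map_zpow₀, map_pow, map_natCast]
    have e7 : (1 : Ω) + δ = s₀ ν / ν := by rw [hδ]; ring
    rw [e6, e7, hθu, div_pow]
    field_simp
    ring
  have h6 := hθ1 s₀ hs₀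
  have h7 : A.valuation ((1 + δ) ^ i * ((s₀ u - u) / u)) < A.valuation δ := by
    rw [map_mul, map_pow, map_div₀, huv, div_one]
    have h8 : A.valuation (1 + δ) ≤ 1 :=
      (A.valuation.map_add _ _).trans (max_le (by rw [map_one]) hδ1.le)
    exact lt_of_le_of_lt (mul_le_of_le_one_left zero_le (pow_le_one₀ zero_le h8))
      (lt_of_le_of_lt hε hδl)
  rw [e5, A.valuation.map_add_eq_of_lt_left (by rw [h4]; exact h7), h4] at h6
  exact absurd hδl (not_lt.2 h6)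

end Fermat.Agent.KField
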